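import Mathlib.NumberTheory.Height.NumberField
import Mathlib.RingTheory.Valuation.ValuationSubring
import Mathlib.RingTheory.MvPolynomial.Basic
import Mathlib.FieldTheory.IsAlgClosed.AlgebraicClosure
import Mathlib.Tactic

/-!
# S17 / heights: basic definitions (append-only; owner helper27)
-/

set_option autoImplicit false

namespace Fermat.Agent.S17.HT

open MvPolynomial

/-- Abstract height system (see blueprint: `HH` = class function with bounded third differences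
in general position; `eta` = naive height relative to `∞`). -/
structure HtSystem (Γ : Type) [AddCommGroup Γ] where
  D : Type
  instD : AddCommMonoid D
  deg : D →+ ℕ
  cl : D →+ Γ
  eta : D → ℝ
  HH : D → ℝ
  GenPos : D → D → D → Prop
  eta_nonneg : ∀ A, 0 ≤ eta A
  classFn : ∀ d : ℕ, ∃ C : ℝ, ∀ A A' : D, deg A ≤ d → deg A' ≤ d → cl A = cl A' →
    |HH A - HH A'| ≤ C
  cube : ∀ d : ℕ, ∃ C : ℝ, ∀ A B E : D, deg A ≤ d → deg B ≤ d → deg E ≤ d → GenPos A B E →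
    |HH (A + B + E) - HH (A + B) - HH (A + E) - HH (B + E) + HH A + HH B + HH E| ≤ C
  moving : ∃ d : ℕ, ∀ x y z : Γ, ∃ A B E : D, deg A ≤ d ∧ deg B ≤ d ∧ deg E ≤ d ∧
    cl A = x ∧ cl B = y ∧ cl E = z ∧ GenPos A B E
  lower : ∃ (d : ℕ) (C : ℝ), ∀ x : Γ, ∃ E C0 : D, deg E ≤ d ∧ deg C0 ≤ d ∧
    cl E = x ∧ cl C0 = -x ∧ eta E - C ≤ HH C0
  northcott : ∀ (d : ℕ) (T : ℝ), {E : D | deg E ≤ d ∧ eta E ≤ T}.Finite

attribute [instance] HtSystem.instD

/-- Height system, version 2 (one level, representatives of degree `d0`, `2 d0`, `3 d0`):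
`HH` is a class function only among divisors of EQUAL degree. -/
structure HtSystem2 (Γ : Type) [AddCommGroup Γ] where
  D : Type
  instD : AddCommMonoid D
  deg : D →+ ℕ
  cl : D →+ Γ
  eta : D → ℝ
  HH : D → ℝ
  GenPos : D → D → D → Prop
  d0 : ℕ
  eta_nonneg : ∀ A, 0 ≤ eta A
  classFn : ∀ d : ℕ, ∃ C : ℝ, ∀ A A' : D, deg A = d → deg A' = d → cl A = cl A' →
    |HH A - HH A'| ≤ C
  cube : ∃ C : ℝ, ∀ A B E : D, deg A = d0 → deg B = d0 → deg E = d0 → GenPos A B E →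
    |HH (A + B + E) - HH (A + B) - HH (A + E) - HH (B + E) + HH A + HH B + HH E| ≤ C
  moving : ∀ x y z : Γ, ∃ A B E : D, deg A = d0 ∧ deg B = d0 ∧ deg E = d0 ∧
    cl A = x ∧ cl B = y ∧ cl E = z ∧ GenPos A B E
  lower : ∃ (d : ℕ) (C : ℝ), ∀ x : Γ, ∃ E C0 : D, deg E ≤ d ∧ deg C0 = d0 ∧
    cl E = x ∧ cl C0 = -x ∧ eta E - C ≤ HH C0
  northcott : ∀ (d : ℕ) (T : ℝ), {E : D | deg E ≤ d ∧ eta E ≤ T}.Finite

attribute [instance] HtSystem2.instD

/-- `T1 ≼ T2` exactly: for every valued field `(𝕂, O) ⊇ k` and every zero `y` of `𝔞` in `𝕂`,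
every `T1 i (y)` lies in `T2 j (y) · O` for some `j`. -/
def ExactLE {k σ I J : Type} [Field k] (𝔞 : Ideal (MvPolynomial σ k))
    (T1 : I → MvPolynomial σ k) (T2 : J → MvPolynomial σ k) : Prop :=
  ∀ (𝕂 : Type) [Field 𝕂] [Algebra k 𝕂] (O : ValuationSubring 𝕂),
    (∀ a : k, algebraMap k 𝕂 a ∈ O) → ∀ y : σ → 𝕂, (∀ p ∈ 𝔞, aeval y p = 0) →
      ∀ i, ∃ j, ∃ c ∈ O, aeval y (T1 i) = c * aeval y (T2 j)

end Fermat.Agent.S17.HT
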