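import Fermat.Agent.S17.HT.Defs
import Mathlib.Order.Filter.Germ.Basic
import Mathlib.Order.Filter.FilterProduct
import Mathlib.Order.Filter.Ultrafilter.Basic

/-!
# S17 / heights : TP-1, ultraproduct transfer for one absolute value
-/

set_option autoImplicit false

namespace Fermat.Agent.S17.HT

open MvPolynomial

/-- the ultrapower of `k` along the hyperfilter of `ℕ`. -/
abbrev TP1.UP (k : Type) : Type := Filter.Germ (Filter.hyperfilter ℕ : Filter ℕ) k

/-- the ring hom `(ℕ → k) → k*`. -/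
noncomputable def TP1.cl (k : Type) [Field k] : (ℕ → k) →+* TP1.UP k :=
  Filter.Germ.coeRingHom (Filter.hyperfilter ℕ : Filter ℕ)

theorem TP1.cl_apply {k : Type} [Field k] (f : ℕ → k) : TP1.cl k f = (f : TP1.UP k) := rfl

theorem TP1.cl_surjective (k : Type) [Field k] : Function.Surjective (TP1.cl k) := by
  intro x
  induction x using Filter.Germ.inductionOn with
  | _ f => exact ⟨f, rfl⟩

theorem TP1.cl_eq_iff {k : Type} [Field k] (f g : ℕ → k) :
    TP1.cl k f = TP1.cl k g ↔ ∀ᶠ n in (Filter.hyperfilter ℕ : Filter ℕ), f n = g n :=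
  Filter.Germ.coe_eq

theorem TP1.cl_inv {k : Type} [Field k] (f : ℕ → k) :
    (TP1.cl k f)⁻¹ = TP1.cl k (fun n => (f n)⁻¹) := rfl

/-- the algebra structure by constants. -/
noncomputable abbrev TP1.alg (k : Type) [Field k] : Algebra k (TP1.UP k) :=
  ((TP1.cl k).comp (algebraMap k (ℕ → k))).toAlgebra

/-- the finite elements of the ultrapower. -/
noncomputable def TP1.fin {k : Type} [Field k] (abv : AbsoluteValue k ℝ) :
    ValuationSubring (TP1.UP k) where
  carrier := {x | ∃ (f : ℕ → k) (N : ℝ), x = TP1.cl k f ∧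
    ∀ᶠ n in (Filter.hyperfilter ℕ : Filter ℕ), abv (f n) ≤ N}
  mul_mem' := by
    rintro _ _ ⟨f, N, rfl, hf⟩ ⟨g, M, rfl, hg⟩
    refine ⟨f * g, N * M, (map_mul _ _ _).symm, ?_⟩
    filter_upwards [hf, hg] with n h1 h2
    rw [Pi.mul_apply, map_mul]
    exact mul_le_mul h1 h2 (abv.nonneg _) ((abv.nonneg _).trans h1)
  one_mem' := ⟨1, 1, (map_one _).symm, Filter.Eventually.of_forall fun n => by
    rw [Pi.one_apply, map_one]⟩
  add_mem' := by
    rintro _ _ ⟨f, N, rfl, hf⟩ ⟨g, M, rfl, hg⟩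
    refine ⟨f + g, N + M, (map_add _ _ _).symm, ?_⟩
    filter_upwards [hf, hg] with n h1 h2
    rw [Pi.add_apply]
    exact (abv.add_le _ _).trans (add_le_add h1 h2)
  zero_mem' := ⟨0, 0, (map_zero _).symm, Filter.Eventually.of_forall fun n => by
    rw [Pi.zero_apply, map_zero]⟩
  neg_mem' := by
    rintro _ ⟨f, N, rfl, hf⟩
    refine ⟨-f, N, (map_neg _ _).symm, ?_⟩
    filter_upwards [hf] with n h1
    rwa [Pi.neg_apply, abv.map_neg]
  mem_or_inv_mem' := by
    intro x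
    obtain ⟨f, rfl⟩ := TP1.cl_surjective k x
    rcases (Filter.hyperfilter ℕ).em (fun n => abv (f n) ≤ 1) with h | h
    · exact Or.inl ⟨f, 1, rfl, h⟩
    · refine Or.inr ⟨fun n => (f n)⁻¹, 1, TP1.cl_inv f, ?_⟩
      filter_upwards [h] with n h1
      rw [not_le] at h1
      rw [map_inv₀]
      exact (inv_lt_one_of_one_lt₀ h1).le

theorem TP1.mem_fin {k : Type} [Field k] (abv : AbsoluteValue k ℝ) (x : TP1.UP k) :
    x ∈ TP1.fin abv ↔ ∃ (f : ℕ → k) (N : ℝ), x = TP1.cl k f ∧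
      ∀ᶠ n in (Filter.hyperfilter ℕ : Filter ℕ), abv (f n) ≤ N := Iff.rfl

/-- evaluation commutes with the class map. -/
theorem TP1.aeval_cl {k σ : Type} [Field k] (y : ℕ → σ → k) (p : MvPolynomial σ k) :
    @aeval k (TP1.UP k) σ _ _ (TP1.alg k) (fun s => TP1.cl k (fun n => y n s)) p
      = TP1.cl k (fun n => aeval (y n) p) := by
  let _ := TP1.alg k
  let φ : (ℕ → k) →ₐ[k] TP1.UP k := { TP1.cl k with commutes' := fun _ => rfl }
  have h1 : aeval (fun s => φ (fun n => y n s)) p = φ (aeval (fun s n => y n s) p) :=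
    (comp_aeval_apply _ φ p).symm
  have h2 : aeval (fun s n => y n s) p = fun n => aeval (y n) p := by
    funext n
    exact comp_aeval_apply _ (Pi.evalAlgHom k (fun _ : ℕ => k) n) p
  rw [h2] at h1
  exact h1

/-- the version of TP-1 for one index `i`. -/
theorem TP1.exists_const_one {k σ I J : Type} [Field k]
    {𝔞 : Ideal (MvPolynomial σ k)} {T1 : I → MvPolynomial σ k} {T2 : J → MvPolynomial σ k}
    (h : ExactLE 𝔞 T1 T2) (abv : AbsoluteValue k ℝ) (i : I) :
    ∃ C : ℝ, 0 < C ∧ ∀ y : σ → k, (∀ p ∈ 𝔞, aeval y p = 0) →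
      ∃ j, abv (aeval y (T1 i)) ≤ C * abv (aeval y (T2 j)) := by
  by_contra hcon
  push Not at hcon
  choose y hy0 hy using fun n : ℕ => hcon ((n : ℝ) + 1) (by positivity)
  obtain ⟨j, c, hc, hj⟩ := @h (TP1.UP k) _ (TP1.alg k) (TP1.fin abv)
    (fun a => ⟨fun _ => a, abv a, rfl, Filter.Eventually.of_forall fun _ => le_rfl⟩)
    (fun s => TP1.cl k (fun n => y n s))
    (fun p hp => by
      rw [TP1.aeval_cl]
      have : (fun n => aeval (y n) p) = 0 := funext fun n => hy0 n p hp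
      rw [this, map_zero]) i
  obtain ⟨f, N, rfl, hf⟩ := hc
  rw [TP1.aeval_cl, TP1.aeval_cl, ← map_mul, TP1.cl_eq_iff] at hj
  have hN : ∀ᶠ n : ℕ in (Filter.hyperfilter ℕ : Filter ℕ), N ≤ (n : ℝ) + 1 := by
    apply Nat.hyperfilter_le_atTop
    obtain ⟨n0, hn0⟩ := exists_nat_ge N
    filter_upwards [Filter.eventually_ge_atTop n0] with n hn
    have : (n0 : ℝ) ≤ n := by exact_mod_cast hn
    linarith
  obtain ⟨n, h1, h2, h3⟩ := (hj.and (hf.and hN)).exists
  have h4 := hy n j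
  rw [h1, Pi.mul_apply, map_mul] at h4
  have h5 : abv (f n) * abv (aeval (y n) (T2 j)) ≤ ((n : ℝ) + 1) * abv (aeval (y n) (T2 j)) :=
    mul_le_mul_of_nonneg_right (h2.trans h3) (abv.nonneg _)
  exact absurd h5 (not_le.2 h4)

/-- **TP-1.** Comparison with a constant at an arbitrary absolute value. -/
theorem ExactLE.exists_const {k σ I J : Type} [Field k] [Finite I]
    {𝔞 : Ideal (MvPolynomial σ k)} {T1 : I → MvPolynomial σ k} {T2 : J → MvPolynomial σ k}
    (h : ExactLE 𝔞 T1 T2) (abv : AbsoluteValue k ℝ) :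
    ∃ C : ℝ, 0 < C ∧ ∀ y : σ → k, (∀ p ∈ 𝔞, aeval y p = 0) →
      ∀ i, ∃ j, abv (aeval y (T1 i)) ≤ C * abv (aeval y (T2 j)) := by
  classical
  have := Fintype.ofFinite I
  choose C hC0 hC using fun i => TP1.exists_const_one h abv i
  refine ⟨1 + ∑ i, C i, by
    have : 0 ≤ ∑ i, C i := Finset.sum_nonneg fun i _ => (hC0 i).le
    linarith, fun y hy i => ?_⟩
  obtain ⟨j, hj⟩ := hC i y hy
  refine ⟨j, hj.trans (mul_le_mul_of_nonneg_right ?_ (abv.nonneg _))⟩
  have : C i ≤ ∑ i, C i := Finset.single_le_sum (fun i _ => (hC0 i).le) (Finset.mem_univ i)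
  linarith

end Fermat.Agent.S17.HT
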