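import Fermat.Agent.S17.HT.Defs
import Mathlib.Order.Filter.Germ.Basic
import Mathlib.Order.Filter.FilterProduct

set_option autoImplicit false

namespace Fermat.Agent.S17.HT

open MvPolynomial Filter

section Ultra

variable {k : Type} [Field k]

/-- the ultrapower of `k` -/
abbrev TP2_K (k : Type) : Type := Germ ((hyperfilter ℕ : Ultrafilter ℕ) : Filter ℕ) k

/-- the diagonal embedding -/
@[instance_reducible]
noncomputable def TP2_alg (k : Type) [Field k] : Algebra k (TP2_K k) :=
  ((Germ.coeRingHom ((hyperfilter ℕ : Ultrafilter ℕ) : Filter ℕ)).comp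
    (Pi.constRingHom ℕ k)).toAlgebra

attribute [local instance] TP2_alg

theorem TP2_algebraMap (a : k) : algebraMap k (TP2_K k) a = ((fun _ => a : ℕ → k) : TP2_K k) := rfl

theorem TP2_aeval {σ : Type} (y : ℕ → σ → k) (q : MvPolynomial σ k) :
    aeval (fun s => ((fun n => y n s : ℕ → k) : TP2_K k)) q =
      ((fun n => aeval (y n) q : ℕ → k) : TP2_K k) := by
  induction q using MvPolynomial.induction_on with
  | C a =>
    rw [aeval_C, TP2_algebraMap]
    congr 1
    funext n
    rw [aeval_C]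
    rfl
  | add p q hp hq =>
    rw [map_add, hp, hq, ← Germ.coe_add]
    congr 1
    funext n
    rw [Pi.add_apply, map_add]
  | mul_X p s hp =>
    rw [map_mul, hp, aeval_X, ← Germ.coe_mul]
    congr 1
    funext n
    rw [Pi.mul_apply, map_mul, aeval_X]

/-- the valuation ring of the ultraproduct of the absolute values `w n` -/
noncomputable def TP2_O (w : ℕ → AbsoluteValue k ℝ) (hna : ∀ n, IsNonarchimedean (w n)) :
    ValuationSubring (TP2_K k) where
  carrier := {f | ∃ x : ℕ → k, f = (x : TP2_K k) ∧ ∀ᶠ n in (hyperfilter ℕ : Filter ℕ), w n (x n) ≤ 1}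
  mul_mem' := by
    rintro _ _ ⟨x, rfl, hx⟩ ⟨y, rfl, hy⟩
    refine ⟨x * y, (Germ.coe_mul x y).symm, ?_⟩
    filter_upwards [hx, hy] with n h1 h2
    rw [Pi.mul_apply, map_mul]
    exact mul_le_one₀ h1 ((w n).nonneg _) h2
  one_mem' := ⟨1, rfl, Eventually.of_forall fun n => by simp⟩
  add_mem' := by
    rintro _ _ ⟨x, rfl, hx⟩ ⟨y, rfl, hy⟩
    refine ⟨x + y, (Germ.coe_add x y).symm, ?_⟩
    filter_upwards [hx, hy] with n h1 h2
    exact (hna n (x n) (y n)).trans (max_le h1 h2)
  zero_mem' := ⟨0, rfl, Eventually.of_forall fun n => by simp⟩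
  neg_mem' := by
    rintro _ ⟨x, rfl, hx⟩
    refine ⟨-x, (Germ.coe_neg x).symm, ?_⟩
    filter_upwards [hx] with n h1
    rw [Pi.neg_apply, map_neg_eq_map]
    exact h1
  mem_or_inv_mem' := by
    intro f
    induction f using Germ.inductionOn with
    | _ x =>
    have h : ∀ᶠ n in (hyperfilter ℕ : Filter ℕ), w n (x n) ≤ 1 ∨ w n (x n)⁻¹ ≤ 1 := by
      refine Eventually.of_forall fun n => ?_
      rcases le_total (w n (x n)) 1 with h | h
      · exact Or.inl h
      · right
        rw [map_inv₀]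
        exact inv_le_one_of_one_le₀ h
    rcases Ultrafilter.eventually_or.mp h with h | h
    · exact Or.inl ⟨x, rfl, h⟩
    · exact Or.inr ⟨x⁻¹, (Germ.coe_inv x).symm, h⟩

theorem TP2_mem_O {w : ℕ → AbsoluteValue k ℝ} {hna : ∀ n, IsNonarchimedean (w n)} {f : TP2_K k} :
    f ∈ TP2_O w hna ↔ ∃ x : ℕ → k, f = (x : TP2_K k) ∧
      ∀ᶠ n in (hyperfilter ℕ : Filter ℕ), w n (x n) ≤ 1 := Iff.rfl

end Ultra

attribute [local instance] TP2_alg in
/-- the case of a fixed index `i` -/
theorem TP2_finite_bad {k σ I J P : Type} [Field k]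
    {𝔞 : Ideal (MvPolynomial σ k)} {T1 : I → MvPolynomial σ k} {T2 : J → MvPolynomial σ k}
    (h : ExactLE 𝔞 T1 T2) (abv : P → AbsoluteValue k ℝ)
    (hna : ∀ p, IsNonarchimedean (abv p)) (hfin : ∀ a : k, {p | 1 < abv p a}.Finite) (i : I) :
    {p | ∃ y : σ → k, (∀ q ∈ 𝔞, aeval y q = 0) ∧
      ∀ j, abv p (aeval y (T2 j)) < abv p (aeval y (T1 i))}.Finite := by
  by_contra hinf
  have hinf' : Set.Infinite _ := hinf
  let e := hinf'.natEmbedding
  have he : ∀ n, ∃ y : σ → k, (∀ q ∈ 𝔞, aeval y q = 0) ∧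
      ∀ j, abv (e n) (aeval y (T2 j)) < abv (e n) (aeval y (T1 i)) := fun n => (e n).2
  choose y hy0 hy using he
  have hinj : Function.Injective (fun n => ((e n : _) : P)) :=
    Subtype.val_injective.comp e.injective
  let w : ℕ → AbsoluteValue k ℝ := fun n => abv (e n)
  have hw : ∀ n, IsNonarchimedean (w n) := fun n => hna _
  obtain ⟨j, c, hc, hcj⟩ := h (TP2_K k) (TP2_O w hw)
    (by
      intro a
      refine ⟨fun _ => a, rfl, ?_⟩
      have h1 : {n : ℕ | 1 < abv (e n) a}.Finite :=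
        Set.Finite.preimage (f := fun n => ((e n : _) : P)) hinj.injOn (hfin a)
      have h2 := Filter.mem_hyperfilter_of_finite_compl (s := {n : ℕ | abv (e n) a ≤ 1}) (by
        convert h1 using 1
        ext n
        simp)
      exact h2)
    (fun s => ((fun n => y n s : ℕ → k) : TP2_K k))
    (by
      intro q hq
      rw [TP2_aeval]
      have : (fun n => aeval (y n) q : ℕ → k) = 0 := funext fun n => hy0 n q hq
      rw [this]
      rfl) i
  obtain ⟨x, rfl, hx⟩ := hc
  rw [TP2_aeval, TP2_aeval, ← Germ.coe_mul, Germ.coe_eq] at hcj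
  obtain ⟨n, h1, h2⟩ := (hx.and hcj).exists
  have h3 := hy n j
  have h2' : aeval (y n) (T1 i) = x n * aeval (y n) (T2 j) := h2
  rw [h2', map_mul] at h3
  have h4 : w n (x n) * abv (e n) (aeval (y n) (T2 j)) ≤ 1 * abv (e n) (aeval (y n) (T2 j)) :=
    mul_le_mul_of_nonneg_right h1 ((abv (e n)).nonneg _)
  rw [one_mul] at h4
  exact absurd h3 (not_lt.mpr h4)

/-- **TP-2.** The constant is `1` for almost all members of a family of non-archimedean
absolute values for which every element of `k` is almost everywhere integral. -/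
theorem ExactLE.finite_bad {k σ I J P : Type} [Field k] [Finite I]
    {𝔞 : Ideal (MvPolynomial σ k)} {T1 : I → MvPolynomial σ k} {T2 : J → MvPolynomial σ k}
    (h : ExactLE 𝔞 T1 T2) (abv : P → AbsoluteValue k ℝ)
    (hna : ∀ p, IsNonarchimedean (abv p)) (hfin : ∀ a : k, {p | 1 < abv p a}.Finite) :
    {p | ∃ y : σ → k, (∀ q ∈ 𝔞, aeval y q = 0) ∧
      ∃ i, ∀ j, abv p (aeval y (T2 j)) < abv p (aeval y (T1 i))}.Finite := by
  refine (Set.finite_iUnion fun i => TP2_finite_bad h abv hna hfin i).subset ?_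
  rintro p ⟨y, hy, i, hi⟩
  exact Set.mem_iUnion.mpr ⟨i, y, hy, hi⟩

end Fermat.Agent.S17.HT
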