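import Fermat.Agent.S17.HT.Defs
import Fermat.Agent.S17.HT.TP1
import Fermat.Agent.S17.HT.TP2
import Mathlib.Analysis.Normed.Unbundled.SpectralNorm
import Mathlib.Analysis.Complex.Polynomial.Basic

/-!
# S17 / heights: GLOB-1, from the exact comparison `ExactLE` to heights over `ℚ`
-/

set_option autoImplicit false

namespace Fermat.Agent.S17.HT

open MvPolynomial NumberField IsDedekindDomain HeightOneSpectrum Height
open scoped WithZero

local notation "Qbar" => AlgebraicClosure ℚ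

/-! ### absolute values on `ℚ̄` -/

/-- every finite place of `ℚ` extends to a nonarchimedean absolute value of `ℚ̄`. -/
theorem glob1_exists_abv_extends (w : FinitePlace ℚ) :
    ∃ abv : AbsoluteValue Qbar ℝ, IsNonarchimedean abv ∧
      ∀ x : ℚ, abv (algebraMap ℚ Qbar x) = w x := by
  obtain ⟨v, hv⟩ := w.2
  let _ := Valued.toNontriviallyNormedField (v.adicCompletion ℚ) ℤᵐ⁰
  have : Algebra.IsAlgebraic ℚ Qbar := AlgebraicClosure.isAlgebraic ℚ
  let ι : Qbar →ₐ[ℚ] AlgebraicClosure (v.adicCompletion ℚ) := IsAlgClosed.lift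
  let N := spectralMulAlgNorm (v.adicCompletion ℚ) (AlgebraicClosure (v.adicCompletion ℚ))
  refine ⟨{ toFun := fun a => N (ι a)
            map_mul' := fun a b => by rw [map_mul, map_mul]
            nonneg' := fun a => apply_nonneg N _
            eq_zero' := fun a => by
              rw [map_eq_zero_iff_eq_zero, map_eq_zero]
            add_le' := fun a b => by rw [map_add]; exact map_add_le_add N _ _ }, ?_, ?_⟩
  · intro a b
    show N (ι (a + b)) ≤ max (N (ι a)) (N (ι b))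
    rw [map_add]
    exact isNonarchimedean_spectralNorm _ _
  · intro x
    show N (ι (algebraMap ℚ Qbar x)) = w x
    rw [AlgHom.commutes, IsScalarTower.algebraMap_apply ℚ (v.adicCompletion ℚ)
      (AlgebraicClosure (v.adicCompletion ℚ)), spectralMulAlgNorm_def, spectralNorm_extends]
    have : w x = w.val x := rfl
    rw [this, ← hv]
    rfl

/-- a root of a monic polynomial with integral coefficients is integral. -/
theorem glob1_abv_le_one_of_monic {k : Type*} [Field k] (abv : AbsoluteValue k ℝ)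
    (hna : IsNonarchimedean abv) {p : Polynomial k} (hp : p.Monic)
    (hc : ∀ i, abv (p.coeff i) ≤ 1) {a : k} (ha : p.eval a = 0) : abv a ≤ 1 := by
  by_contra h
  rw [not_le] at h
  have hn : p.natDegree ≠ 0 := by
    intro h0
    rw [hp.natDegree_eq_zero.1 h0, Polynomial.eval_one] at ha
    exact one_ne_zero ha
  have h1 : a ^ p.natDegree = - ∑ i ∈ Finset.range p.natDegree, p.coeff i * a ^ i := by
    rw [Polynomial.eval_eq_sum_range, Finset.sum_range_succ, hp.coeff_natDegree, one_mul] at ha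
    exact eq_neg_of_add_eq_zero_right ha
  obtain ⟨i, hi, hle⟩ := hna.finset_image_add_of_nonempty (fun i => p.coeff i * a ^ i)
    (t := Finset.range p.natDegree) (Finset.nonempty_range_iff.2 hn)
  have h2 : abv a ^ p.natDegree ≤ abv a ^ i := by
    calc abv a ^ p.natDegree = abv (a ^ p.natDegree) := (map_pow abv a _).symm
      _ = abv (∑ i ∈ Finset.range p.natDegree, p.coeff i * a ^ i) := by rw [h1, map_neg_eq_map]
      _ ≤ abv (p.coeff i * a ^ i) := hle
      _ = abv (p.coeff i) * abv a ^ i := by rw [map_mul, map_pow]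
      _ ≤ 1 * abv a ^ i := by gcongr; exact hc i
      _ = abv a ^ i := one_mul _
  have h3 : abv a ^ i < abv a ^ p.natDegree := pow_lt_pow_right₀ h (Finset.mem_range.1 hi)
  exact absurd h2 (not_le.2 h3)

/-- every algebraic number is integral at almost all places. -/
theorem glob1_finite_one_lt_abv (abvF : FinitePlace ℚ → AbsoluteValue Qbar ℝ)
    (hna : ∀ w, IsNonarchimedean (abvF w))
    (hext : ∀ w (x : ℚ), abvF w (algebraMap ℚ Qbar x) = w x) (a : Qbar) :
    {w | 1 < abvF w a}.Finite := by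
  have halg : IsIntegral ℚ a := (AlgebraicClosure.isAlgebraic ℚ).isIntegral.isIntegral a
  set p := minpoly ℚ a with hp
  have hfin : (⋃ i ∈ p.support, {w : FinitePlace ℚ | w (p.coeff i) ≠ 1}).Finite := by
    refine Set.Finite.biUnion (Finset.finite_toSet _) fun i hi => ?_
    exact FinitePlace.hasFiniteMulSupport (Polynomial.mem_support_iff.1 hi)
  refine hfin.subset fun w hw => ?_
  by_contra hcon
  simp only [Set.mem_iUnion, not_exists] at hcon
  apply absurd hw
  simp only [Set.mem_ofPred_eq, not_lt]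
  refine glob1_abv_le_one_of_monic (abvF w) (hna w)
    ((minpoly.monic halg).map (algebraMap ℚ Qbar)) (fun i => ?_) (a := a) ?_
  · rw [Polynomial.coeff_map, hext]
    by_cases hi : i ∈ p.support
    · have := hcon i hi
      simp only [Set.mem_ofPred_eq, not_not] at this
      exact this.le
    · rw [Polynomial.notMem_support_iff.1 hi, map_zero]
      exact zero_le_one
  · rw [Polynomial.eval_map_algebraMap, minpoly.aeval]

/-- an archimedean absolute value of `ℚ̄` extending the usual one. -/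
theorem glob1_exists_abv_arch : ∃ abv : AbsoluteValue Qbar ℝ,
    ∀ x : ℚ, abv (algebraMap ℚ Qbar x) = |(x : ℝ)| := by
  have : Algebra.IsAlgebraic ℚ Qbar := AlgebraicClosure.isAlgebraic ℚ
  let ι : Qbar →ₐ[ℚ] ℂ := IsAlgClosed.lift
  refine ⟨place ι.toRingHom, fun x => ?_⟩
  show ‖ι (algebraMap ℚ Qbar x)‖ = _
  rw [AlgHom.commutes]
  simp

/-! ### the height over `ℚ` -/

theorem glob1_mulHeight_eq {ι : Type*} [Finite ι] {x : ι → ℚ} (hx : x ≠ 0) :
    mulHeight x = (⨆ i, |(x i : ℝ)|) * ∏ᶠ v : FinitePlace ℚ, ⨆ i, v (x i) := by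
  rw [NumberField.mulHeight_eq hx]
  simp_rw [Rat.infinitePlace_apply]
  simp

theorem glob1_hasFiniteMulSupport {ι : Type*} [Finite ι] {x : ι → ℚ} (hx : x ≠ 0) :
    (fun v : FinitePlace ℚ ↦ ⨆ i, v (x i)).HasFiniteMulSupport := by
  have : Nonempty {j // x j ≠ 0} := nonempty_subtype.mpr <| Function.ne_iff.mp hx
  suffices (fun v : FinitePlace ℚ ↦ ⨆ i : {j // x j ≠ 0}, v (x i)).HasFiniteMulSupport by
    convert! this with v
    obtain ⟨i, hi⟩ : ∃ j, x j ≠ 0 := Function.ne_iff.mp hx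
    have : Nonempty ι := .intro i
    refine le_antisymm (ciSup_le fun j ↦ ?_) (ciSup_le fun ⟨j, hj⟩ ↦ Finite.le_ciSup_of_le j le_rfl)
    rcases eq_or_ne (x j) 0 with h | h
    · rw [h, map_zero]
      exact Real.iSup_nonneg' ⟨⟨i, hi⟩, apply_nonneg v _⟩
    · exact Finite.le_ciSup_of_le ⟨j, h⟩ le_rfl
  exact .iSup fun i => FinitePlace.hasFiniteMulSupport i.2

/-- the local step: cancel the common scalar. -/
theorem glob1_local {I J : Type} [Finite I] [Finite J] (abv : AbsoluteValue Qbar ℝ)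
    (f : ℚ → ℝ) (hf : ∀ x, abv (algebraMap ℚ Qbar x) = f x) {C : ℝ} (hC : 0 ≤ C)
    {a1 : I → Qbar} {a2 : J → Qbar} (h : ∀ i, ∃ j, abv (a1 i) ≤ C * abv (a2 j))
    {c : Qbar} (hc : c ≠ 0) {t1 : I → ℚ} {t2 : J → ℚ}
    (h1 : ∀ i, a1 i = c * algebraMap ℚ Qbar (t1 i))
    (h2 : ∀ j, a2 j = c * algebraMap ℚ Qbar (t2 j)) (i : I) :
    ∃ j, f (t1 i) ≤ C * f (t2 j) ∧ f (t1 i) ≤ C * ⨆ j, f (t2 j) := by
  obtain ⟨j, hj⟩ := h i
  rw [h1, h2, map_mul, map_mul, hf, hf, mul_left_comm] at hj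
  have hc' : 0 < abv c := abv.pos hc
  have h3 : f (t1 i) ≤ C * f (t2 j) := le_of_mul_le_mul_left hj hc'
  refine ⟨j, h3, h3.trans ?_⟩
  gcongr
  exact Finite.le_ciSup_of_le j le_rfl

/-- **GLOB-1.** Height comparison over `ℚ`: if at a zero `y ∈ ℚ̄^σ` of `𝔞` both tuples are
rational up to one common scalar, then `logHeight t1 ≤ logHeight t2 + C`. -/
theorem ExactLE.logHeight_le {σ I J : Type} [Fintype I] [Fintype J]
    {𝔞 : Ideal (MvPolynomial σ (AlgebraicClosure ℚ))}
    {T1 : I → MvPolynomial σ (AlgebraicClosure ℚ)} {T2 : J → MvPolynomial σ (AlgebraicClosure ℚ)}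
    (h : ExactLE 𝔞 T1 T2) :
    ∃ C : ℝ, ∀ y : σ → AlgebraicClosure ℚ, (∀ p ∈ 𝔞, aeval y p = 0) →
      ∀ (c : AlgebraicClosure ℚ) (t1 : I → ℚ) (t2 : J → ℚ), c ≠ 0 → t1 ≠ 0 →
        (∀ i, aeval y (T1 i) = c * algebraMap ℚ (AlgebraicClosure ℚ) (t1 i)) →
        (∀ j, aeval y (T2 j) = c * algebraMap ℚ (AlgebraicClosure ℚ) (t2 j)) →
        Height.logHeight t1 ≤ Height.logHeight t2 + C := by
  classical
  choose abvF hna hext using glob1_exists_abv_extends
  obtain ⟨abvI, hextI⟩ := glob1_exists_abv_arch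
  have hbad := h.finite_bad abvF hna (glob1_finite_one_lt_abv abvF hna hext)
  set bad := {p | ∃ y : σ → Qbar, (∀ q ∈ 𝔞, aeval y q = 0) ∧
      ∃ i, ∀ j, abvF p (aeval y (T2 j)) < abvF p (aeval y (T1 i))} with hbaddef
  choose CF hCF0 hCF using fun w => h.exists_const (abvF w)
  obtain ⟨CI, hCI0, hCI⟩ := h.exists_const abvI
  let Cf : FinitePlace ℚ → ℝ := fun w => if w ∈ bad then CF w else 1
  have hCf0 : ∀ w, 0 < Cf w := by
    intro w
    by_cases hw : w ∈ bad
    · simp only [Cf, if_pos hw]; exact hCF0 w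
    · simp only [Cf, if_neg hw]; exact one_pos
  have hCfsupp : Cf.HasFiniteMulSupport := by
    refine hbad.subset fun w hw => ?_
    by_contra hcon
    exact hw (by simp only [Cf, if_neg hcon])
  have hCf : ∀ w, ∀ y : σ → Qbar, (∀ p ∈ 𝔞, aeval y p = 0) →
      ∀ i, ∃ j, abvF w (aeval y (T1 i)) ≤ Cf w * abvF w (aeval y (T2 j)) := by
    intro w y hy i
    by_cases hw : w ∈ bad
    · simp only [Cf, if_pos hw]; exact hCF w y hy i
    · simp only [Cf, if_neg hw, one_mul]
      by_contra hcon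
      apply hw
      refine ⟨y, hy, i, fun j => ?_⟩
      by_contra hj
      exact hcon ⟨j, not_lt.1 hj⟩
  have hprod0 : 0 < ∏ᶠ w, Cf w := by
    rw [finprod_eq_prod_of_mulSupport_subset Cf (s := hbad.toFinset) (by
      intro w hw
      rw [Set.Finite.coe_toFinset]
      by_contra hcon
      exact hw (by simp only [Cf, if_neg hcon]))]
    exact Finset.prod_pos fun w _ => hCf0 w
  refine ⟨Real.log (CI * ∏ᶠ w, Cf w), fun y hy c t1 t2 hc ht1 h1 h2 => ?_⟩
  -- the local inequalities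
  have hlocI := glob1_local abvI (fun x : ℚ => |(x : ℝ)|) hextI hCI0.le (hCI y hy) hc h1 h2
  have hlocF := fun w => glob1_local (abvF w) (fun x : ℚ => w x) (hext w) (hCf0 w).le
    (hCf w y hy) hc h1 h2
  obtain ⟨i0, hi0⟩ := Function.ne_iff.mp ht1
  have : Nonempty I := ⟨i0⟩
  have ht2 : t2 ≠ 0 := by
    obtain ⟨j, hj, -⟩ := hlocI i0
    intro h0
    simp only [h0, Pi.zero_apply, Rat.cast_zero, abs_zero, mul_zero] at hj
    have : (0 : ℝ) < |(t1 i0 : ℝ)| := abs_pos.2 (by exact_mod_cast hi0)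
    linarith
  have key : mulHeight t1 ≤ (CI * ∏ᶠ w, Cf w) * mulHeight t2 := by
    rw [glob1_mulHeight_eq ht1, glob1_mulHeight_eq ht2]
    have hA : (⨆ i, |(t1 i : ℝ)|) ≤ CI * ⨆ j, |(t2 j : ℝ)| := ciSup_le fun i => (hlocI i).choose_spec.2
    have hB : (∏ᶠ v : FinitePlace ℚ, ⨆ i, v (t1 i)) ≤
        (∏ᶠ w, Cf w) * ∏ᶠ v : FinitePlace ℚ, ⨆ j, v (t2 j) := by
      rw [← finprod_mul_distrib hCfsupp (glob1_hasFiniteMulSupport ht2)]
      refine finprod_le_finprod (glob1_hasFiniteMulSupport ht1)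
        (fun v => Real.iSup_nonneg fun i => apply_nonneg v _)
        (hCfsupp.mul (glob1_hasFiniteMulSupport ht2)) fun v => ?_
      exact ciSup_le fun i => (hlocF v i).choose_spec.2
    calc (⨆ i, |(t1 i : ℝ)|) * ∏ᶠ v : FinitePlace ℚ, ⨆ i, v (t1 i)
        ≤ (CI * ⨆ j, |(t2 j : ℝ)|) * ((∏ᶠ w, Cf w) * ∏ᶠ v : FinitePlace ℚ, ⨆ j, v (t2 j)) := by
          refine mul_le_mul hA hB (finprod_nonneg fun v => Real.iSup_nonneg fun i => apply_nonneg v _)
            (mul_nonneg hCI0.le (Real.iSup_nonneg fun j => abs_nonneg _))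
      _ = _ := by ring
  rw [logHeight_eq_log_mulHeight, logHeight_eq_log_mulHeight, add_comm,
    ← Real.log_mul (mul_pos hCI0 hprod0).ne' (mulHeight_ne_zero t2)]
  exact Real.log_le_log (mulHeight_pos t1) key

end Fermat.Agent.S17.HT
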