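import Fermat.Agent.S17.HT.Defs

/-!
# S17 / heights: the formal part (HF-1)
-/

set_option autoImplicit false

namespace Fermat.Agent.S17.HT

open MvPolynomial

/-- **HF-1.** A height system gives a non-negative quasi-quadratic Northcott height. -/
theorem HtSystem.exists_height {Γ : Type} [AddCommGroup Γ] (S : HtSystem Γ) :
    ∃ (h : Γ → ℝ) (C : ℝ), (∀ x, 0 ≤ h x) ∧
      (∀ x y, |h (x + y) + h (x - y) - 2 * (h x + h y)| ≤ C) ∧
      (∀ B : ℝ, {x | h x ≤ B}.Finite) := by
  obtain ⟨d0, hmov⟩ := S.moving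
  obtain ⟨C1, hcube⟩ := S.cube d0
  obtain ⟨d1, C3, hlow⟩ := S.lower
  obtain ⟨C2, hcl⟩ := S.classFn (3 * d0 + d1)
  -- representatives
  have hrep : ∀ x : Γ, ∃ A : S.D, S.deg A ≤ d0 ∧ S.cl A = x := fun x => by
    obtain ⟨A, _, _, hA, _, _, hx, _⟩ := hmov x 0 0
    exact ⟨A, hA, hx⟩
  choose rep hrepdeg hrepcl using hrep
  set H : Γ → ℝ := fun x => S.HH (rep x) with hH
  have hcmp : ∀ (A : S.D) (x : Γ), S.deg A ≤ 3 * d0 + d1 → S.cl A = x →
      |S.HH A - H x| ≤ C2 := by
    intro A x hA hx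
    exact hcl A (rep x) hA (by have := hrepdeg x; omega) (by rw [hx, hrepcl])
  -- bounded third differences
  have hthird : ∀ x y z : Γ,
      |H (x + y + z) - H (x + y) - H (x + z) - H (y + z) + H x + H y + H z| ≤ C1 + 7 * C2 := by
    intro x y z
    obtain ⟨A, B, E, hA, hB, hE, rfl, rfl, rfl, hgen⟩ := hmov x y z
    have h0 := hcube A B E hA hB hE hgen
    have h1 := hcmp (A + B + E) (S.cl A + S.cl B + S.cl E)
      (by simp only [map_add]; omega) (by simp only [map_add])
    have h2 := hcmp (A + B) (S.cl A + S.cl B) (by simp only [map_add]; omega)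
      (by simp only [map_add])
    have h3 := hcmp (A + E) (S.cl A + S.cl E) (by simp only [map_add]; omega)
      (by simp only [map_add])
    have h4 := hcmp (B + E) (S.cl B + S.cl E) (by simp only [map_add]; omega)
      (by simp only [map_add])
    have h5 := hcmp A (S.cl A) (by omega) rfl
    have h6 := hcmp B (S.cl B) (by omega) rfl
    have h7 := hcmp E (S.cl E) (by omega) rfl
    rw [abs_le] at h0 h1 h2 h3 h4 h5 h6 h7 ⊢
    constructor <;> linarith [h0.1, h0.2, h1.1, h1.2, h2.1, h2.2, h3.1, h3.2, h4.1, h4.2, h5.1,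
      h5.2, h6.1, h6.2, h7.1, h7.2]
  -- the lower bound
  have hlow' : ∀ x : Γ, ∃ E : S.D, S.deg E ≤ d1 ∧ S.cl E = x ∧ S.eta E - (C3 + C2) ≤ H (-x) := by
    intro x
    obtain ⟨E, C0, hE, hC0, hEx, hC0x, hle⟩ := hlow x
    have h1 := hcmp C0 (-x) (by omega) hC0x
    rw [abs_le] at h1
    exact ⟨E, hE, hEx, by linarith [h1.1, h1.2]⟩
  choose Ex hExdeg hExcl hExle using hlow'
  have hHlow : ∀ x : Γ, -(C3 + C2) ≤ H x := by
    intro x
    have h1 := hExle (-x)
    rw [neg_neg] at h1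
    linarith [S.eta_nonneg (Ex (-x))]
  have heta : ∀ x : Γ, S.eta (Ex x) ≤ H x + H (-x) + 2 * (C3 + C2) := by
    intro x
    linarith [hHlow x, hExle x]
  refine ⟨fun x => H x + H (-x) + 2 * (C3 + C2),
    2 * (C1 + 7 * C2) + |2 * H 0 + 4 * (C3 + C2)|, fun x => ?_, fun x y => ?_, fun B => ?_⟩
  · exact (S.eta_nonneg (Ex x)).trans (heta x)
  · have t1 := hthird x y (-y)
    have t2 := hthird (-x) (-y) y
    have e1 : x + y + -y = x := by abel
    have e2 : x + -y = x - y := by abel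
    have e3 : y + -y = 0 := by abel
    have e4 : -x + -y + y = -x := by abel
    have e5 : -x + -y = -(x + y) := by abel
    have e6 : -x + y = -(x - y) := by abel
    have e7 : -y + y = 0 := by abel
    rw [e1, e2, e3] at t1
    rw [e4, e5, e6, e7] at t2
    have a1 := le_abs_self (2 * H 0 + 4 * (C3 + C2))
    have a2 := neg_abs_le (2 * H 0 + 4 * (C3 + C2))
    rw [abs_le] at t1 t2 ⊢
    constructor <;> linarith [t1.1, t1.2, t2.1, t2.2]
  · refine ((S.northcott d1 B).image S.cl).subset ?_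
    intro x hx
    exact ⟨Ex x, ⟨hExdeg x, (heta x).trans hx⟩, hExcl x⟩

end Fermat.Agent.S17.HT
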