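import Fermat.Agent.S17.HT.Defs

/-!
# S17 / heights: the formal part, equal-degree version (HF-2)
-/

set_option autoImplicit false

namespace Fermat.Agent.S17.HT

/-- If `H₃(x+y+z) - H₂(x+y) - H₂(x+z) - H₂(y+z) + H₁ x + H₁ y + H₁ z` is bounded, then `H₁` has
bounded third differences. -/
theorem hf2_third {Γ : Type} [AddCommGroup Γ] (H1 H2 H3 : Γ → ℝ) (K : ℝ)
    (hstar : ∀ x y z : Γ,
      |H3 (x + y + z) - H2 (x + y) - H2 (x + z) - H2 (y + z) + H1 x + H1 y + H1 z| ≤ K)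
    (x y z : Γ) :
    |H1 (x + y + z) - H1 (x + y) - H1 (x + z) - H1 (y + z) + H1 x + H1 y + H1 z|
      ≤ 12 * K + |H1 0| := by
  -- `R p`
  have hR : ∀ p : Γ, |H3 p - 2 * H2 p - H2 0 + H1 p + 2 * H1 0| ≤ K := by
    intro p
    have h := hstar p 0 0
    simp only [add_zero] at h
    have e : H3 p - 2 * H2 p - H2 0 + H1 p + 2 * H1 0 =
        H3 p - H2 p - H2 p - H2 0 + H1 p + H1 0 + H1 0 := by ring
    rw [e]; exact h
  -- `S p q`
  have hS : ∀ p q : Γ, |H3 (p + q) - H2 (p + q) - H2 p - H2 q + H1 p + H1 q + H1 0| ≤ K := by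
    intro p q
    have h := hstar p q 0
    simp only [add_zero] at h
    exact h
  -- `Q p q`
  have hQ : ∀ p q : Γ, |(H2 (p + q) - H1 (p + q)) - (H2 p - H1 p) - (H2 q - H1 q) + (H2 0 - H1 0)|
      ≤ 2 * K := by
    intro p q
    have h1 := hS p q
    have h2 := hR (p + q)
    rw [abs_le] at h1 h2 ⊢
    constructor <;> linarith [h1.1, h1.2, h2.1, h2.2]
  have t3 := hstar x y z
  have r := hR (x + y + z)
  have q1 := hQ (x + y) z
  have q2 := hQ x y
  have q3 := hQ x z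
  have q4 := hQ y z
  have a1 := le_abs_self (H1 0)
  have a2 := neg_abs_le (H1 0)
  rw [abs_le] at t3 r q1 q2 q3 q4 ⊢
  constructor <;> linarith [t3.1, t3.2, r.1, r.2, q1.1, q1.2, q2.1, q2.2, q3.1, q3.2, q4.1, q4.2]

/-- **HF-2.** A height system (version 2) gives a non-negative quasi-quadratic Northcott height. -/
theorem HtSystem2.exists_height {Γ : Type} [AddCommGroup Γ] (S : HtSystem2 Γ) :
    ∃ (h : Γ → ℝ) (C : ℝ), (∀ x, 0 ≤ h x) ∧
      (∀ x y, |h (x + y) + h (x - y) - 2 * (h x + h y)| ≤ C) ∧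
      (∀ B : ℝ, {x | h x ≤ B}.Finite) := by
  have hmov := S.moving
  obtain ⟨K0, hcube⟩ := S.cube
  obtain ⟨d1, C3, hlow⟩ := S.lower
  obtain ⟨c1, hcl1⟩ := S.classFn S.d0
  obtain ⟨c2, hcl2⟩ := S.classFn (S.d0 + S.d0)
  obtain ⟨c3, hcl3⟩ := S.classFn (S.d0 + S.d0 + S.d0)
  -- representatives
  have hrep : ∀ x : Γ, ∃ A B E : S.D, S.deg A = S.d0 ∧ S.deg B = S.d0 ∧ S.deg E = S.d0 ∧
      S.cl A = x ∧ S.cl B = 0 ∧ S.cl E = 0 := fun x => by
    obtain ⟨A, B, E, hA, hB, hE, hx, hy, hz, _⟩ := hmov x 0 0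
    exact ⟨A, B, E, hA, hB, hE, hx, hy, hz⟩
  choose rA rB rE hrA hrB hrE hcA hcB hcE using hrep
  set H1 : Γ → ℝ := fun x => S.HH (rA x) with hH1
  set H2 : Γ → ℝ := fun x => S.HH (rA x + rB x) with hH2
  set H3 : Γ → ℝ := fun x => S.HH (rA x + rB x + rE x) with hH3
  have hcmp1 : ∀ (A : S.D) (x : Γ), S.deg A = S.d0 → S.cl A = x → |S.HH A - H1 x| ≤ c1 := by
    intro A x hA hx
    exact hcl1 A (rA x) hA (hrA x) (by rw [hx, hcA])
  have hcmp2 : ∀ (A : S.D) (x : Γ), S.deg A = S.d0 + S.d0 → S.cl A = x →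
      |S.HH A - H2 x| ≤ c2 := by
    intro A x hA hx
    exact hcl2 A (rA x + rB x) hA (by rw [map_add, hrA, hrB])
      (by rw [hx, map_add, hcA, hcB, add_zero])
  have hcmp3 : ∀ (A : S.D) (x : Γ), S.deg A = S.d0 + S.d0 + S.d0 → S.cl A = x →
      |S.HH A - H3 x| ≤ c3 := by
    intro A x hA hx
    exact hcl3 A (rA x + rB x + rE x) hA (by rw [map_add, map_add, hrA, hrB, hrE])
      (by rw [hx, map_add, map_add, hcA, hcB, hcE, add_zero, add_zero])
  have hstar : ∀ x y z : Γ,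
      |H3 (x + y + z) - H2 (x + y) - H2 (x + z) - H2 (y + z) + H1 x + H1 y + H1 z|
        ≤ K0 + c3 + 3 * c2 + 3 * c1 := by
    intro x y z
    obtain ⟨A, B, E, hA, hB, hE, rfl, rfl, rfl, hgen⟩ := hmov x y z
    have h0 := hcube A B E hA hB hE hgen
    have h1 := hcmp3 (A + B + E) (S.cl A + S.cl B + S.cl E)
      (by rw [map_add, map_add, hA, hB, hE]) (by simp only [map_add])
    have h2 := hcmp2 (A + B) (S.cl A + S.cl B) (by rw [map_add, hA, hB]) (by simp only [map_add])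
    have h3 := hcmp2 (A + E) (S.cl A + S.cl E) (by rw [map_add, hA, hE]) (by simp only [map_add])
    have h4 := hcmp2 (B + E) (S.cl B + S.cl E) (by rw [map_add, hB, hE]) (by simp only [map_add])
    have h5 := hcmp1 A (S.cl A) hA rfl
    have h6 := hcmp1 B (S.cl B) hB rfl
    have h7 := hcmp1 E (S.cl E) hE rfl
    rw [abs_le] at h0 h1 h2 h3 h4 h5 h6 h7 ⊢
    constructor <;> linarith [h0.1, h0.2, h1.1, h1.2, h2.1, h2.2, h3.1, h3.2, h4.1, h4.2, h5.1,
      h5.2, h6.1, h6.2, h7.1, h7.2]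
  -- bounded third differences of `H1`
  obtain ⟨C1, hC1⟩ : ∃ C1 : ℝ, C1 = 12 * (K0 + c3 + 3 * c2 + 3 * c1) + |H1 0| := ⟨_, rfl⟩
  have hthird : ∀ x y z : Γ,
      |H1 (x + y + z) - H1 (x + y) - H1 (x + z) - H1 (y + z) + H1 x + H1 y + H1 z| ≤ C1 := by
    intro x y z
    rw [hC1]
    exact hf2_third H1 H2 H3 _ hstar x y z
  -- the lower bound
  have hlow' : ∀ x : Γ, ∃ E : S.D, S.deg E ≤ d1 ∧ S.cl E = x ∧ S.eta E - (C3 + c1) ≤ H1 (-x) := by
    intro x
    obtain ⟨E, C0, hE, hC0, hEx, hC0x, hle⟩ := hlow x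
    have h1 := hcmp1 C0 (-x) hC0 hC0x
    rw [abs_le] at h1
    exact ⟨E, hE, hEx, by linarith [h1.1, h1.2]⟩
  choose Ex hExdeg hExcl hExle using hlow'
  have hHlow : ∀ x : Γ, -(C3 + c1) ≤ H1 x := by
    intro x
    have h1 := hExle (-x)
    rw [neg_neg] at h1
    linarith [S.eta_nonneg (Ex (-x))]
  have heta : ∀ x : Γ, S.eta (Ex x) ≤ H1 x + H1 (-x) + 2 * (C3 + c1) := by
    intro x
    linarith [hHlow x, hExle x]
  refine ⟨fun x => H1 x + H1 (-x) + 2 * (C3 + c1),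
    2 * C1 + |2 * H1 0 + 4 * (C3 + c1)|, fun x => ?_, fun x y => ?_, fun B => ?_⟩
  · exact (S.eta_nonneg (Ex x)).trans (heta x)
  · have t1 := hthird x y (-y)
    have t2 := hthird (-x) (-y) y
    have e1 : x + y + -y = x := by abel
    have e2 : x + -y = x - y := by abel
    have e3 : y + -y = 0 := by abel
    have e4 : -x + -y + y = -x := by abel
    have e5 : -x + -y = -(x + y) := by abel
    have e6 : -x + y = -(x - y) := by abel
    have e7 : -y + y = 0 := by abel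
    rw [e1, e2, e3] at t1
    rw [e4, e5, e6, e7] at t2
    have a1 := le_abs_self (2 * H1 0 + 4 * (C3 + c1))
    have a2 := neg_abs_le (2 * H1 0 + 4 * (C3 + c1))
    rw [abs_le] at t1 t2 ⊢
    constructor <;> linarith [t1.1, t1.2, t2.1, t2.2]
  · refine ((S.northcott d1 B).image S.cl).subset ?_
    intro x hx
    exact ⟨Ex x, ⟨hExdeg x, (heta x).trans hx⟩, hExcl x⟩

end Fermat.Agent.S17.HT
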